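/-
T1B / brick DEGEN-HECKE (helper21), abstract part: push-forward of divisors is functorial in towers
(all places of degree one), and a push-forward commutes with a correspondence as soon as the two
obvious squares commute and the base-change square has compatible norms.

* `pushforward_pushforward`, `pushforwardAlong_comp` : `(ψ ∘ φ)_* = φ_* ∘ ψ_*`;
* `pushforwardAlong_congr` : equal embeddings have equal push-forwards;
* `pushforwardAlong_correspondence` : for `a : A → B`, `x, y : A → C`, `a' : C → D`, `x', y' : B → D`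
  with `a' ∘ x = x' ∘ a`, `a' ∘ y = y' ∘ a` and `N_{a'} (y' f) = y (N_a f)`:
  `a_* ∘ (x'_* y'^*) = (x_* y^*) ∘ a_*` on `Div B`.
-/
import Mathlib
import Fermat.Agent.ES.HECKE.BaseChange19
import Fermat.Agent.ES.HECKE.NormCompat12

set_option autoImplicit false
set_option linter.style.haveILetI false
set_option linter.unusedSectionVars false

open AlgebraicCurve

noncomputable section

namespace Fermat.Agent.T1B.Degen21.Abstract

open Fermat.Agent.ES.HECKE

/-! ### towers -/

section Tower

variable {K F F₁ G₁ : Type*} [Field K] [Field F] [Field F₁] [Field G₁]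
  [Algebra K F] [Algebra K F₁] [Algebra K G₁]
  [Algebra F F₁] [Algebra F₁ G₁] [Algebra F G₁]
  [IsScalarTower K F F₁] [IsScalarTower K F₁ G₁] [IsScalarTower K F G₁]
  [IsScalarTower F F₁ G₁]
  [Algebra.IsIntegral F F₁] [Algebra.IsIntegral F₁ G₁] [Algebra.IsIntegral F G₁]

omit [IsScalarTower K F F₁] [IsScalarTower K F₁ G₁] [Algebra F₁ G₁] [IsScalarTower F F₁ G₁]
  [Algebra.IsIntegral F F₁] [Algebra.IsIntegral F₁ G₁] [Algebra F F₁] [Field F₁] [Algebra K F₁] in
theorem inertiaDeg_eq_one_of_deg (w : Place K G₁) (h1 : w.deg = 1)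
    (h2 : (w.restrict F).deg = 1) : w.inertiaDeg F = 1 := by
  have h := w.deg_restrict_mul_inertiaDeg (F := F)
  rw [h1, h2, one_mul] at h
  exact h

/-- Push-forward of divisors is functorial in towers (all places of degree one). -/
theorem pushforward_pushforward (hG : ∀ w : Place K G₁, w.deg = 1)
    (hF₁ : ∀ w : Place K F₁, w.deg = 1) (hF : ∀ w : Place K F, w.deg = 1) (D : Divisor K G₁) :
    Divisor.pushforward F (Divisor.pushforward F₁ D) = Divisor.pushforward F D := by
  have key : (Divisor.pushforward (K := K) (F' := F₁) F).comp (Divisor.pushforward F₁) =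
      Divisor.pushforward (K := K) (F' := G₁) F := by
    apply Finsupp.addHom_ext
    intro w n
    rw [AddMonoidHom.comp_apply, Divisor.pushforward_single, Divisor.pushforward_single,
      Divisor.pushforward_single, BaseChange19.restrict_restrict,
      inertiaDeg_eq_one_of_deg (F := F₁) w (hG w) (hF₁ _),
      inertiaDeg_eq_one_of_deg (F := F) w (hG w) (hF _),
      inertiaDeg_eq_one_of_deg (F := F) (w.restrict F₁) (hF₁ _) (hF _)]
    simp
  exact DFunLike.congr_fun key D

end Tower

/-! ### `Along` forms -/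

section Along

variable {K F F₁ G₁ : Type*} [Field K] [Field F] [Field F₁] [Field G₁]
  [Algebra K F] [Algebra K F₁] [Algebra K G₁]

/-- Functoriality of `pushforwardAlong`. -/
theorem pushforwardAlong_comp (φ : F →ₐ[K] F₁) (ψ : F₁ →ₐ[K] G₁) (hφ : φ.toRingHom.IsIntegral)
    (hψ : ψ.toRingHom.IsIntegral) (hψφ : (ψ.comp φ).toRingHom.IsIntegral)
    (hG : ∀ w : Place K G₁, w.deg = 1) (hF₁ : ∀ w : Place K F₁, w.deg = 1)
    (hF : ∀ w : Place K F, w.deg = 1) (D : Divisor K G₁) :
    Divisor.pushforwardAlong (ψ.comp φ) hψφ D =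
      Divisor.pushforwardAlong φ hφ (Divisor.pushforwardAlong ψ hψ D) := by
  letI := algebraAlong φ
  letI := algebraAlong ψ
  letI := algebraAlong (ψ.comp φ)
  haveI := isScalarTower_along φ
  haveI := isScalarTower_along ψ
  haveI := isScalarTower_along (ψ.comp φ)
  haveI := isIntegral_along φ hφ
  haveI := isIntegral_along ψ hψ
  haveI := isIntegral_along (ψ.comp φ) hψφ
  haveI : IsScalarTower F F₁ G₁ := IsScalarTower.of_algebraMap_eq (fun _ => rfl)
  exact (pushforward_pushforward (F := F) (F₁ := F₁) (G₁ := G₁) hG hF₁ hF D).symm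

/-- Equal embeddings have equal push-forwards. -/
theorem pushforwardAlong_congr {φ ψ : F →ₐ[K] F₁} (h : φ = ψ) (hφ : φ.toRingHom.IsIntegral)
    (hψ : ψ.toRingHom.IsIntegral) (D : Divisor K F₁) :
    Divisor.pushforwardAlong φ hφ D = Divisor.pushforwardAlong ψ hψ D := by
  subst h
  rfl

end Along

/-! ### a push-forward commutes with a correspondence -/

section Square

variable {K A B C D : Type*} [Field K] [Field A] [Field B] [Field C] [Field D]
  [Algebra K A] [Algebra K B] [Algebra K C] [Algebra K D]

/-- **`a_* ∘ (x'_* y'^*) = (x_* y^*) ∘ a_*`** for `a : A → B`, `x, y : A → C`, `a' : C → D`,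
`x', y' : B → D` with `a' ∘ x = x' ∘ a`, `a' ∘ y = y' ∘ a` and compatible norms in the square
`(a, y, a', y')`. -/
theorem pushforwardAlong_correspondence
    [HasPrincipalDivisors K B] [HasPrincipalDivisors K C] [HasPrincipalDivisors K D]
    (a : A →ₐ[K] B) (x y : A →ₐ[K] C) (a' : C →ₐ[K] D) (x' y' : B →ₐ[K] D)
    (hcommx : a'.comp x = x'.comp a) (hcommy : a'.comp y = y'.comp a)
    (ha : a.toRingHom.IsIntegral) (hx : x.toRingHom.IsIntegral) (hy : y.toRingHom.IsIntegral)
    (ha' : a'.toRingHom.IsIntegral) (hx' : x'.toRingHom.IsIntegral)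
    (hy' : y'.toRingHom.IsIntegral)
    (hfin : FiniteAlong K a) (hfin' : FiniteAlong K a')
    (hN : NormFormulaAlong K a hfin) (hN' : NormFormulaAlong K a' hfin')
    (hnorm : ∀ f : B, BaseChange19.normAlong a' (y' f) = y (BaseChange19.normAlong a f))
    (hA : ∀ w : Place K A, w.deg = 1) (hB : ∀ w : Place K B, w.deg = 1)
    (hC : ∀ w : Place K C, w.deg = 1) (hD : ∀ w : Place K D, w.deg = 1)
    (E : Divisor K B) :
    Divisor.pushforwardAlong a ha (Divisor.correspondence y' x' hy' hx' E) =
      Divisor.correspondence y x hy hx (Divisor.pushforwardAlong a ha E) := by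
  rw [Divisor.correspondence_apply, Divisor.correspondence_apply,
    BaseChange19.pullbackAlong_pushforwardAlong a y a' y' hcommy ha hy ha' hy' hfin hfin' hN hN'
      hnorm E,
    ← pushforwardAlong_comp a x' ha hx' (BaseChange19.isIntegral_comp a x' ha hx') hD hB hA,
    ← pushforwardAlong_comp x a' hx ha' (BaseChange19.isIntegral_comp x a' hx ha') hD hC hA]
  exact (pushforwardAlong_congr hcommx _ _ _).symm

end Square

end Fermat.Agent.T1B.Degen21.Abstract
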