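/-
T1B / brick DEGEN-HECKE (helper21), part 2: the push-forward on `Pic⁰` along a finite embedding, its
compatibility with semilinear automorphisms (Galois) and with correspondences.

* `degZeroPush`, `pic0Push φ hφ hfin hN : Pic0 K F' →+ Pic0 K F`  (`φ : F →ₐ[K] F'`), `pic0Push_mk`;
* `pic0Push_smul` : `φ_* (g' • x) = g • φ_* x` for compatible semilinear automorphisms (inertia degrees 1);
* `pic0Push_correspondence` : `a_* ∘ (x'_* y'^*) = (x_* y^*) ∘ a_*` on `Pic⁰` for `a : A → B`,
  `x, y : A → C`, `a' : C → D`, `x', y' : B → D` with `a' ∘ x = x' ∘ a`, `a' ∘ y = y' ∘ a` and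
  `N_{a'} (y' f) = y (N_a f)` (all places of degree one).
-/
import Mathlib
import Fermat.Agent.T1B.Degen21.Abstract
import Fermat.Agent.ES.HECKE.HeckeGalois12

set_option autoImplicit false
set_option linter.style.haveILetI false
set_option linter.unusedSectionVars false

open AlgebraicCurve

noncomputable section

namespace Fermat.Agent.T1B.Degen21.Pic

open Fermat.Agent.ES.HECKE Fermat.Agent.T1B.Degen21.Abstract

/-! ### push-forward on `Pic⁰` -/

section Generic

variable {K F F' : Type*} [Field K] [Field F] [Field F'] [Algebra K F] [Algebra K F']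

/-- push-forward of degree-zero divisors. -/
def degZeroPush (φ : F →ₐ[K] F') (hφ : φ.toRingHom.IsIntegral) :
    Divisor.degZero (K := K) (F := F') →+ Divisor.degZero (K := K) (F := F) :=
  ((Divisor.pushforwardAlong φ hφ).domRestrict (Divisor.degZero (K := K) (F := F'))).codRestrict _
    (fun D => Divisor.pushforwardAlong_mem_degZero φ hφ D.2)

@[simp]
theorem coe_degZeroPush (φ : F →ₐ[K] F') (hφ : φ.toRingHom.IsIntegral)
    (D : Divisor.degZero (K := K) (F := F')) :
    (degZeroPush φ hφ D : Divisor K F) = Divisor.pushforwardAlong φ hφ (D : Divisor K F') :=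
  rfl

/-- **push-forward on `Pic⁰`** along a finite embedding with the norm formula. -/
def pic0Push (φ : F →ₐ[K] F') (hφ : φ.toRingHom.IsIntegral) (hfin : FiniteAlong K φ)
    (hN : NormFormulaAlong K φ hfin) : Pic0 K F' →+ Pic0 K F :=
  QuotientAddGroup.map _ _ (degZeroPush φ hφ) (by
    rintro ⟨D, hD0⟩ hD
    simp only [AddSubgroup.mem_addSubgroupOf] at hD ⊢
    exact Divisor.isPrincipal_pushforwardAlong φ hφ hfin hN hD)

theorem pic0Push_mk (φ : F →ₐ[K] F') (hφ : φ.toRingHom.IsIntegral) (hfin : FiniteAlong K φ)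
    (hN : NormFormulaAlong K φ hfin) (D : Divisor.degZero (K := K) (F := F')) :
    pic0Push φ hφ hfin hN (Pic0.mk D) = Pic0.mk (degZeroPush φ hφ D) :=
  rfl

/-- the push-forward on `Pic⁰` commutes with compatible semilinear automorphisms. -/
theorem pic0Push_smul (φ : F →ₐ[K] F') (hφ : φ.toRingHom.IsIntegral) (hfin : FiniteAlong K φ)
    (hN : NormFormulaAlong K φ hfin) (g : SemilinearAut K F) (g' : SemilinearAut K F')
    (hcomm : ∀ f : F, φ (g • f) = g' • φ f)
    (hf : ∀ w : Place K F', w.inertiaDegAlong φ hφ = 1) (x : Pic0 K F') :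
    pic0Push φ hφ hfin hN (g' • x) = g • pic0Push φ hφ hfin hN x := by
  obtain ⟨D, rfl⟩ := Pic0.mk_surjective x
  rw [SemilinearAut.pic0_smul_mk, pic0Push_mk, pic0Push_mk, SemilinearAut.pic0_smul_mk]
  refine congrArg Pic0.mk (Subtype.ext ?_)
  rw [coe_degZeroPush, SemilinearAut.coe_degZeroSMulHom, SemilinearAut.coe_degZeroSMulHom,
    coe_degZeroPush]
  exact HeckeGalois12.pushforwardAlong_smul φ hφ g g' hcomm hf (D : Divisor K F')

end Generic

/-! ### push-forward and correspondences on `Pic⁰` -/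

section Square

variable {K A B C D : Type*} [Field K] [Field A] [Field B] [Field C] [Field D]
  [Algebra K A] [Algebra K B] [Algebra K C] [Algebra K D]

/-- **`a_* ∘ (x'_* y'^*) = (x_* y^*) ∘ a_*` on `Pic⁰`.** -/
theorem pic0Push_correspondence
    [HasPrincipalDivisors K B] [HasPrincipalDivisors K C] [HasPrincipalDivisors K D]
    (a : A →ₐ[K] B) (x y : A →ₐ[K] C) (a' : C →ₐ[K] D) (x' y' : B →ₐ[K] D)
    (hcommx : a'.comp x = x'.comp a) (hcommy : a'.comp y = y'.comp a)
    (ha : a.toRingHom.IsIntegral) (hx : x.toRingHom.IsIntegral) (hy : y.toRingHom.IsIntegral)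
    (ha' : a'.toRingHom.IsIntegral) (hx' : x'.toRingHom.IsIntegral)
    (hy' : y'.toRingHom.IsIntegral)
    (hfin : FiniteAlong K a) (hfin' : FiniteAlong K a')
    (hN : NormFormulaAlong K a hfin) (hN' : NormFormulaAlong K a' hfin')
    (hnorm : ∀ f : B, BaseChange19.normAlong a' (y' f) = y (BaseChange19.normAlong a f))
    (hA : ∀ w : Place K A, w.deg = 1) (hB : ∀ w : Place K B, w.deg = 1)
    (hC : ∀ w : Place K C, w.deg = 1) (hD : ∀ w : Place K D, w.deg = 1)
    (hFIy : FundamentalIdentityAlong K y hy) (hfinx : FiniteAlong K x)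
    (hNx : NormFormulaAlong K x hfinx)
    (hFIy' : FundamentalIdentityAlong K y' hy') (hfinx' : FiniteAlong K x')
    (hNx' : NormFormulaAlong K x' hfinx') (z : Pic0 K B) :
    pic0Push a ha hfin hN (Pic0.correspondence y' x' hy' hx' hFIy' hfinx' hNx' z) =
      Pic0.correspondence y x hy hx hFIy hfinx hNx (pic0Push a ha hfin hN z) := by
  obtain ⟨E, rfl⟩ := Pic0.mk_surjective z
  rw [Pic0.correspondence_mk, pic0Push_mk, pic0Push_mk, Pic0.correspondence_mk]
  refine congrArg Pic0.mk (Subtype.ext ?_)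
  rw [coe_degZeroPush, Pic0.coe_degZeroCorrespondence, Pic0.coe_degZeroCorrespondence,
    coe_degZeroPush]
  exact pushforwardAlong_correspondence a x y a' x' y' hcommx hcommy ha hx hy ha' hx' hy' hfin hfin'
    hN hN' hnorm hA hB hC hD (E : Divisor K B)

end Square

end Fermat.Agent.T1B.Degen21.Pic
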