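/-
T1B / brick DEGEN-HECKE (helper21), part 3: the two degeneracy push-forwards
`π₁ = (α_p)_*`, `π₂ = (β_p)_* : J₀(N p)(ℚ̄) → J₀(N)(ℚ̄)` (Prelude `heckeAlphaBar`, `heckeBetaBar`), and their
compatibility with Galois, with `T_ℓ = α_* β^*` (Prelude `heckeOperatorBar`) and with the transposed
operator `U_ℓ = β_* α^*` (Prelude `heckePic0BarTranspose`), for primes `ℓ ≠ p` (`ℓ ∣ N` allowed).

The four norm compatibilities of the base-change squares are HYPOTHESES here (`NormBC N p ℓ`); they are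
discharged in `Degen21/Gen.lean` (ramification trick) resp. by helper20's `Degen20/NormBC.lean`.

* `alphaUp N p ℓ`, `betaUp N p ℓ : F̄_{Nℓ} → F̄_{Npℓ}` : the degeneracy maps at `p` from level `N ℓ`, with
  target level written `N p ℓ` (so that no cast is needed on the Hecke side);
* `sq_alpha_alpha`, `sq_alpha_beta`, `sq_beta_alpha`, `sq_beta_beta` : the four commutative squares;
* `NormBC N p ℓ` : the four norm compatibilities;
* `piOne N p hp`, `piTwo N p hp : JZero (N * p) →+ JZero N`;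
* `piOne_smul`, `piTwo_smul` : Galois-equivariance;
* `piOne_heckeOperatorAlong`, `piTwo_heckeOperatorAlong`, `piOne_heckeOperatorBar`, … : `π_i ∘ T_ℓ = T_ℓ ∘ π_i`;
* `piOne_transpose`, `piTwo_transpose` : `π_i ∘ U_ℓ = U_ℓ ∘ π_i` (for ANY proofs of the side conditions).
-/
import Mathlib
import Fermat.Agent.T1B.Degen21.Pic
import Fermat.Agent.T1B.DivNorm27.Main
import Fermat.Agent.ES.HECKE.LevelPullback12

set_option autoImplicit false
set_option linter.style.haveILetI false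
set_option linter.unusedSectionVars false

open ModularCurve AlgebraicCurve

noncomputable section

namespace Fermat.Agent.T1B.Degen21.Level

open Fermat.Agent.ES.HECKE Fermat.Agent.ES.HECKE.LevelPullback12 Fermat.Agent.T1B.DivNorm27
  Fermat.Agent.T1B.Degen21.Pic Fermat.Agent.RED.TOP Fermat.Agent.ES.HECKE.InputsMain19
open Fermat.Agent.ES.HECKE.BaseChange19 (normAlong)

local notation "Qb" => AlgebraicClosure ℚ

/-! ### generic: finiteness of a composite -/

section Comp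

variable {K F F₁ G₁ : Type*} [Field K] [Field F] [Field F₁] [Field G₁]
  [Algebra K F] [Algebra K F₁] [Algebra K G₁]

theorem finiteAlong_comp (φ : F →ₐ[K] F₁) (ψ : F₁ →ₐ[K] G₁) (hφ : FiniteAlong K φ)
    (hψ : FiniteAlong K ψ) : FiniteAlong K (ψ.comp φ) := by
  letI := algebraAlong φ
  letI := algebraAlong ψ
  letI := algebraAlong (ψ.comp φ)
  haveI : IsScalarTower F F₁ G₁ := IsScalarTower.of_algebraMap_eq (fun _ => rfl)
  haveI : Module.Finite F F₁ := hφ
  haveI : Module.Finite F₁ G₁ := hψ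
  exact Module.Finite.trans F₁ G₁

end Comp

/-! ### the degeneracy maps at `p` from level `N ℓ` to level `N p ℓ` -/

section Up

variable (N p ℓ : ℕ) [NeZero N] [NeZero p] [NeZero ℓ]

/-- `α_p : F̄_{Nℓ} → F̄_{Npℓ}` (the inclusion). -/
def alphaUp : modularFunctionFieldBar (N * ℓ) →ₐ[Qb] modularFunctionFieldBar (N * p * ℓ) :=
  levelIncl ⟨p, by ring⟩

@[simp]
theorem coe_alphaUp (x : modularFunctionFieldBar (N * ℓ)) :
    (alphaUp N p ℓ x : LaurentSeries Qb) = (x : LaurentSeries Qb) :=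
  coe_levelIncl _ x

/-- `β_p : F̄_{Nℓ} → F̄_{Npℓ}` (`q ↦ q^p`). -/
def betaUp : modularFunctionFieldBar (N * ℓ) →ₐ[Qb] modularFunctionFieldBar (N * p * ℓ) :=
  (levelIncl (dvd_of_eq (Nat.mul_right_comm N ℓ p))).comp (heckeBetaBar Qb (N * ℓ) p)

@[simp]
theorem coe_betaUp (x : modularFunctionFieldBar (N * ℓ)) :
    (betaUp N p ℓ x : LaurentSeries Qb) = qExpand Qb p (x : LaurentSeries Qb) := by
  rw [betaUp, AlgHom.comp_apply, coe_levelIncl, coe_heckeBetaBar]

theorem finiteAlong_alphaUp : FiniteAlong Qb (alphaUp N p ℓ) :=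
  levelIncl_finiteAlong _

theorem finiteAlong_betaUp (hp : p.Prime) : FiniteAlong Qb (betaUp N p ℓ) :=
  finiteAlong_comp _ _ (finiteAlong_beta_all (N * ℓ) p hp) (levelIncl_finiteAlong _)

theorem isIntegral_alphaUp : (alphaUp N p ℓ).toRingHom.IsIntegral :=
  levelIncl_isIntegral _

theorem isIntegral_betaUp (hp : p.Prime) : (betaUp N p ℓ).toRingHom.IsIntegral :=
  AlongDegree25.isIntegral_of_finiteAlong _ (finiteAlong_betaUp N p ℓ hp)

theorem normFormulaAlong_alphaUp :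
    NormFormulaAlong Qb (alphaUp N p ℓ) (finiteAlong_alphaUp N p ℓ) :=
  NormFormula15.normFormulaAlong_of_isGen _ _ (FbarFacts20.isGen_j (N * p * ℓ))

theorem normFormulaAlong_betaUp (hp : p.Prime) :
    NormFormulaAlong Qb (betaUp N p ℓ) (finiteAlong_betaUp N p ℓ hp) :=
  NormFormula15.normFormulaAlong_of_isGen _ _ (FbarFacts20.isGen_j (N * p * ℓ))

/-! ### the four commutative squares -/

theorem sq_alpha_alpha :
    (alphaUp N p ℓ).comp (heckeAlphaBar Qb N ℓ) =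
      (heckeAlphaBar Qb (N * p) ℓ).comp (heckeAlphaBar Qb N p) := by
  apply AlgHom.ext
  intro x
  apply Subtype.ext
  rw [AlgHom.comp_apply, AlgHom.comp_apply, coe_alphaUp, coe_heckeAlphaBar, coe_heckeAlphaBar,
    coe_heckeAlphaBar]

theorem sq_alpha_beta :
    (alphaUp N p ℓ).comp (heckeBetaBar Qb N ℓ) =
      (heckeBetaBar Qb (N * p) ℓ).comp (heckeAlphaBar Qb N p) := by
  apply AlgHom.ext
  intro x
  apply Subtype.ext
  rw [AlgHom.comp_apply, AlgHom.comp_apply, coe_alphaUp, coe_heckeBetaBar, coe_heckeBetaBar,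
    coe_heckeAlphaBar]

theorem sq_beta_alpha :
    (betaUp N p ℓ).comp (heckeAlphaBar Qb N ℓ) =
      (heckeAlphaBar Qb (N * p) ℓ).comp (heckeBetaBar Qb N p) := by
  apply AlgHom.ext
  intro x
  apply Subtype.ext
  rw [AlgHom.comp_apply, AlgHom.comp_apply, coe_betaUp, coe_heckeAlphaBar, coe_heckeAlphaBar,
    coe_heckeBetaBar]

theorem sq_beta_beta :
    (betaUp N p ℓ).comp (heckeBetaBar Qb N ℓ) =
      (heckeBetaBar Qb (N * p) ℓ).comp (heckeBetaBar Qb N p) := by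
  apply AlgHom.ext
  intro x
  apply Subtype.ext
  rw [AlgHom.comp_apply, AlgHom.comp_apply, coe_betaUp, coe_heckeBetaBar, coe_heckeBetaBar,
    coe_heckeBetaBar, qExpand_qExpand, qExpand_qExpand]
  exact qExpand_congr (mul_comm p ℓ) _

/-- **The four norm compatibilities** of the base-change squares at `(N, p, ℓ)`. -/
structure NormBC : Prop where
  alpha_alpha : ∀ f : modularFunctionFieldBar (N * p),
    normAlong (alphaUp N p ℓ) (heckeAlphaBar Qb (N * p) ℓ f) =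
      heckeAlphaBar Qb N ℓ (normAlong (heckeAlphaBar Qb N p) f)
  alpha_beta : ∀ f : modularFunctionFieldBar (N * p),
    normAlong (alphaUp N p ℓ) (heckeBetaBar Qb (N * p) ℓ f) =
      heckeBetaBar Qb N ℓ (normAlong (heckeAlphaBar Qb N p) f)
  beta_alpha : ∀ f : modularFunctionFieldBar (N * p),
    normAlong (betaUp N p ℓ) (heckeAlphaBar Qb (N * p) ℓ f) =
      heckeAlphaBar Qb N ℓ (normAlong (heckeBetaBar Qb N p) f)
  beta_beta : ∀ f : modularFunctionFieldBar (N * p),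
    normAlong (betaUp N p ℓ) (heckeBetaBar Qb (N * p) ℓ f) =
      heckeBetaBar Qb N ℓ (normAlong (heckeBetaBar Qb N p) f)

end Up

/-! ### the two degeneracy push-forwards -/

section Pi

variable (N p : ℕ) [NeZero N] [NeZero p]

/-- `π₁ = (α_p)_* : J₀(N p) → J₀(N)`. -/
def piOne (hp : p.Prime) : JZero (N * p) →+ JZero N :=
  pic0Push (heckeAlphaBar Qb N p) (heckeAlphaBarIntegral_all N p hp) (finiteAlong_alpha_all N p hp)
    (normFormulaAlong_alpha_all N p hp)

/-- `π₂ = (β_p)_* : J₀(N p) → J₀(N)`. -/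
def piTwo (hp : p.Prime) : JZero (N * p) →+ JZero N :=
  pic0Push (heckeBetaBar Qb N p) (heckeBetaBarIntegral_all N p hp) (finiteAlong_beta_all N p hp)
    (normFormulaAlong_beta_all N p hp)

theorem piOne_mk (hp : p.Prime)
    (D : Divisor.degZero (K := Qb) (F := modularFunctionFieldBar (N * p))) :
    piOne N p hp (Pic0.mk D) =
      Pic0.mk (degZeroPush (heckeAlphaBar Qb N p) (heckeAlphaBarIntegral_all N p hp) D) :=
  rfl

theorem piTwo_mk (hp : p.Prime)
    (D : Divisor.degZero (K := Qb) (F := modularFunctionFieldBar (N * p))) :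
    piTwo N p hp (Pic0.mk D) =
      Pic0.mk (degZeroPush (heckeBetaBar Qb N p) (heckeBetaBarIntegral_all N p hp) D) :=
  rfl

/-- **Galois-equivariance of `π₁`.** -/
theorem piOne_smul (hp : p.Prime) (σ : Qb ≃ₐ[ℚ] Qb) (x : JZero (N * p)) :
    piOne N p hp (σ • x) = σ • piOne N p hp x := by
  haveI := FbarFacts20.hasPrincipalDivisors_bar (N * p)
  rw [galois_smul_pic0_def, galois_smul_pic0_def]
  exact pic0Push_smul _ _ _ _ (arithmeticGalois (modularFunctionFieldFull N) σ)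
    (arithmeticGalois (modularFunctionFieldFull (N * p)) σ)
    (HeckeGalois12.heckeAlphaBar_smul N p σ)
    (fun w => FundId12.inertiaDegAlong_eq_one _ _ (finiteAlong_alpha_all N p hp)
      (FbarFacts20.isGen_j N) w) x

/-- **Galois-equivariance of `π₂`.** -/
theorem piTwo_smul (hp : p.Prime) (σ : Qb ≃ₐ[ℚ] Qb) (x : JZero (N * p)) :
    piTwo N p hp (σ • x) = σ • piTwo N p hp x := by
  haveI := FbarFacts20.hasPrincipalDivisors_bar (N * p)
  rw [galois_smul_pic0_def, galois_smul_pic0_def]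
  exact pic0Push_smul _ _ _ _ (arithmeticGalois (modularFunctionFieldFull N) σ)
    (arithmeticGalois (modularFunctionFieldFull (N * p)) σ)
    (HeckeGalois12.heckeBetaBar_smul N p σ)
    (fun w => FundId12.inertiaDegAlong_eq_one _ _ (finiteAlong_beta_all N p hp)
      (FbarFacts20.isGen_j N) w) x

end Pi

/-! ### commutation with the Hecke correspondences at `ℓ ≠ p` -/

section Hecke

variable (N p ℓ : ℕ) [NeZero N] [NeZero p] [NeZero ℓ]

/-- `π₁ ∘ (α_ℓ)_* (β_ℓ)^* = (α_ℓ)_* (β_ℓ)^* ∘ π₁` (the Prelude's orientation), for any proofs of the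
side conditions. -/
theorem piOne_heckePic0Bar (hp : p.Prime)
    (hnorm : ∀ f : modularFunctionFieldBar (N * p),
      normAlong (alphaUp N p ℓ) (heckeBetaBar Qb (N * p) ℓ f) =
        heckeBetaBar Qb N ℓ (normAlong (heckeAlphaBar Qb N p) f))
    [HasPrincipalDivisors Qb (modularFunctionFieldBar (N * ℓ))]
    [HasPrincipalDivisors Qb (modularFunctionFieldBar (N * p * ℓ))]
    (hα : HeckeAlphaBarIntegral Qb N ℓ) (hβ : HeckeBetaBarIntegral Qb N ℓ)
    (hFI : FundamentalIdentityAlong Qb (heckeBetaBar Qb N ℓ) hβ)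
    (hfin : FiniteAlong Qb (heckeAlphaBar Qb N ℓ))
    (hN : NormFormulaAlong Qb (heckeAlphaBar Qb N ℓ) hfin)
    (hα' : HeckeAlphaBarIntegral Qb (N * p) ℓ) (hβ' : HeckeBetaBarIntegral Qb (N * p) ℓ)
    (hFI' : FundamentalIdentityAlong Qb (heckeBetaBar Qb (N * p) ℓ) hβ')
    (hfin' : FiniteAlong Qb (heckeAlphaBar Qb (N * p) ℓ))
    (hN' : NormFormulaAlong Qb (heckeAlphaBar Qb (N * p) ℓ) hfin') (x : JZero (N * p)) :
    piOne N p hp (heckePic0Bar hα' hβ' hFI' hfin' hN' x) =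
      heckePic0Bar hα hβ hFI hfin hN (piOne N p hp x) := by
  haveI := FbarFacts20.hasPrincipalDivisors_bar (N * p)
  exact pic0Push_correspondence (heckeAlphaBar Qb N p) (heckeAlphaBar Qb N ℓ) (heckeBetaBar Qb N ℓ)
    (alphaUp N p ℓ) (heckeAlphaBar Qb (N * p) ℓ) (heckeBetaBar Qb (N * p) ℓ)
    (sq_alpha_alpha N p ℓ) (sq_alpha_beta N p ℓ) (heckeAlphaBarIntegral_all N p hp) hα hβ
    (isIntegral_alphaUp N p ℓ) hα' hβ' (finiteAlong_alpha_all N p hp) (finiteAlong_alphaUp N p ℓ)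
    (normFormulaAlong_alpha_all N p hp) (normFormulaAlong_alphaUp N p ℓ) hnorm
    (FbarFacts20.deg_eq_one_bar N) (FbarFacts20.deg_eq_one_bar (N * p))
    (FbarFacts20.deg_eq_one_bar (N * ℓ)) (FbarFacts20.deg_eq_one_bar (N * p * ℓ))
    hFI hfin hN hFI' hfin' hN' x

/-- `π₂ ∘ (α_ℓ)_* (β_ℓ)^* = (α_ℓ)_* (β_ℓ)^* ∘ π₂`. -/
theorem piTwo_heckePic0Bar (hp : p.Prime)
    (hnorm : ∀ f : modularFunctionFieldBar (N * p),
      normAlong (betaUp N p ℓ) (heckeBetaBar Qb (N * p) ℓ f) =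
        heckeBetaBar Qb N ℓ (normAlong (heckeBetaBar Qb N p) f))
    [HasPrincipalDivisors Qb (modularFunctionFieldBar (N * ℓ))]
    [HasPrincipalDivisors Qb (modularFunctionFieldBar (N * p * ℓ))]
    (hα : HeckeAlphaBarIntegral Qb N ℓ) (hβ : HeckeBetaBarIntegral Qb N ℓ)
    (hFI : FundamentalIdentityAlong Qb (heckeBetaBar Qb N ℓ) hβ)
    (hfin : FiniteAlong Qb (heckeAlphaBar Qb N ℓ))
    (hN : NormFormulaAlong Qb (heckeAlphaBar Qb N ℓ) hfin)
    (hα' : HeckeAlphaBarIntegral Qb (N * p) ℓ) (hβ' : HeckeBetaBarIntegral Qb (N * p) ℓ)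
    (hFI' : FundamentalIdentityAlong Qb (heckeBetaBar Qb (N * p) ℓ) hβ')
    (hfin' : FiniteAlong Qb (heckeAlphaBar Qb (N * p) ℓ))
    (hN' : NormFormulaAlong Qb (heckeAlphaBar Qb (N * p) ℓ) hfin') (x : JZero (N * p)) :
    piTwo N p hp (heckePic0Bar hα' hβ' hFI' hfin' hN' x) =
      heckePic0Bar hα hβ hFI hfin hN (piTwo N p hp x) := by
  haveI := FbarFacts20.hasPrincipalDivisors_bar (N * p)
  exact pic0Push_correspondence (heckeBetaBar Qb N p) (heckeAlphaBar Qb N ℓ) (heckeBetaBar Qb N ℓ)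
    (betaUp N p ℓ) (heckeAlphaBar Qb (N * p) ℓ) (heckeBetaBar Qb (N * p) ℓ)
    (sq_beta_alpha N p ℓ) (sq_beta_beta N p ℓ) (heckeBetaBarIntegral_all N p hp) hα hβ
    (isIntegral_betaUp N p ℓ hp) hα' hβ' (finiteAlong_beta_all N p hp) (finiteAlong_betaUp N p ℓ hp)
    (normFormulaAlong_beta_all N p hp) (normFormulaAlong_betaUp N p ℓ hp) hnorm
    (FbarFacts20.deg_eq_one_bar N) (FbarFacts20.deg_eq_one_bar (N * p))
    (FbarFacts20.deg_eq_one_bar (N * ℓ)) (FbarFacts20.deg_eq_one_bar (N * p * ℓ))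
    hFI hfin hN hFI' hfin' hN' x

/-- `π₁ ∘ (β_ℓ)_* (α_ℓ)^* = (β_ℓ)_* (α_ℓ)^* ∘ π₁` (the transposed orientation `U_ℓ`), for any proofs of
the side conditions. -/
theorem piOne_transpose (hp : p.Prime)
    (hnorm : ∀ f : modularFunctionFieldBar (N * p),
      normAlong (alphaUp N p ℓ) (heckeAlphaBar Qb (N * p) ℓ f) =
        heckeAlphaBar Qb N ℓ (normAlong (heckeAlphaBar Qb N p) f))
    [HasPrincipalDivisors Qb (modularFunctionFieldBar (N * ℓ))]
    [HasPrincipalDivisors Qb (modularFunctionFieldBar (N * p * ℓ))]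
    (hα : HeckeAlphaBarIntegral Qb N ℓ) (hβ : HeckeBetaBarIntegral Qb N ℓ)
    (hFI : FundamentalIdentityAlong Qb (heckeAlphaBar Qb N ℓ) hα)
    (hfin : FiniteAlong Qb (heckeBetaBar Qb N ℓ))
    (hN : NormFormulaAlong Qb (heckeBetaBar Qb N ℓ) hfin)
    (hα' : HeckeAlphaBarIntegral Qb (N * p) ℓ) (hβ' : HeckeBetaBarIntegral Qb (N * p) ℓ)
    (hFI' : FundamentalIdentityAlong Qb (heckeAlphaBar Qb (N * p) ℓ) hα')
    (hfin' : FiniteAlong Qb (heckeBetaBar Qb (N * p) ℓ))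
    (hN' : NormFormulaAlong Qb (heckeBetaBar Qb (N * p) ℓ) hfin') (x : JZero (N * p)) :
    piOne N p hp (heckePic0BarTranspose hα' hβ' hFI' hfin' hN' x) =
      heckePic0BarTranspose hα hβ hFI hfin hN (piOne N p hp x) := by
  haveI := FbarFacts20.hasPrincipalDivisors_bar (N * p)
  exact pic0Push_correspondence (heckeAlphaBar Qb N p) (heckeBetaBar Qb N ℓ) (heckeAlphaBar Qb N ℓ)
    (alphaUp N p ℓ) (heckeBetaBar Qb (N * p) ℓ) (heckeAlphaBar Qb (N * p) ℓ)
    (sq_alpha_beta N p ℓ) (sq_alpha_alpha N p ℓ) (heckeAlphaBarIntegral_all N p hp) hβ hα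
    (isIntegral_alphaUp N p ℓ) hβ' hα' (finiteAlong_alpha_all N p hp) (finiteAlong_alphaUp N p ℓ)
    (normFormulaAlong_alpha_all N p hp) (normFormulaAlong_alphaUp N p ℓ) hnorm
    (FbarFacts20.deg_eq_one_bar N) (FbarFacts20.deg_eq_one_bar (N * p))
    (FbarFacts20.deg_eq_one_bar (N * ℓ)) (FbarFacts20.deg_eq_one_bar (N * p * ℓ))
    hFI hfin hN hFI' hfin' hN' x

/-- `π₂ ∘ (β_ℓ)_* (α_ℓ)^* = (β_ℓ)_* (α_ℓ)^* ∘ π₂`. -/
theorem piTwo_transpose (hp : p.Prime)
    (hnorm : ∀ f : modularFunctionFieldBar (N * p),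
      normAlong (betaUp N p ℓ) (heckeAlphaBar Qb (N * p) ℓ f) =
        heckeAlphaBar Qb N ℓ (normAlong (heckeBetaBar Qb N p) f))
    [HasPrincipalDivisors Qb (modularFunctionFieldBar (N * ℓ))]
    [HasPrincipalDivisors Qb (modularFunctionFieldBar (N * p * ℓ))]
    (hα : HeckeAlphaBarIntegral Qb N ℓ) (hβ : HeckeBetaBarIntegral Qb N ℓ)
    (hFI : FundamentalIdentityAlong Qb (heckeAlphaBar Qb N ℓ) hα)
    (hfin : FiniteAlong Qb (heckeBetaBar Qb N ℓ))
    (hN : NormFormulaAlong Qb (heckeBetaBar Qb N ℓ) hfin)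
    (hα' : HeckeAlphaBarIntegral Qb (N * p) ℓ) (hβ' : HeckeBetaBarIntegral Qb (N * p) ℓ)
    (hFI' : FundamentalIdentityAlong Qb (heckeAlphaBar Qb (N * p) ℓ) hα')
    (hfin' : FiniteAlong Qb (heckeBetaBar Qb (N * p) ℓ))
    (hN' : NormFormulaAlong Qb (heckeBetaBar Qb (N * p) ℓ) hfin') (x : JZero (N * p)) :
    piTwo N p hp (heckePic0BarTranspose hα' hβ' hFI' hfin' hN' x) =
      heckePic0BarTranspose hα hβ hFI hfin hN (piTwo N p hp x) := by
  haveI := FbarFacts20.hasPrincipalDivisors_bar (N * p)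
  exact pic0Push_correspondence (heckeBetaBar Qb N p) (heckeBetaBar Qb N ℓ) (heckeAlphaBar Qb N ℓ)
    (betaUp N p ℓ) (heckeBetaBar Qb (N * p) ℓ) (heckeAlphaBar Qb (N * p) ℓ)
    (sq_beta_beta N p ℓ) (sq_beta_alpha N p ℓ) (heckeBetaBarIntegral_all N p hp) hβ hα
    (isIntegral_betaUp N p ℓ hp) hβ' hα' (finiteAlong_beta_all N p hp) (finiteAlong_betaUp N p ℓ hp)
    (normFormulaAlong_beta_all N p hp) (normFormulaAlong_betaUp N p ℓ hp) hnorm
    (FbarFacts20.deg_eq_one_bar N) (FbarFacts20.deg_eq_one_bar (N * p))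
    (FbarFacts20.deg_eq_one_bar (N * ℓ)) (FbarFacts20.deg_eq_one_bar (N * p * ℓ))
    hFI hfin hN hFI' hfin' hN' x

end Hecke

end Fermat.Agent.T1B.Degen21.Level
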