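/-
T1B / brick DEGEN-HECKE (helper21): the family of `U`-operators `U_ℓ = (β_ℓ)_* (α_ℓ)^*` on `J₀(N)(ℚ̄)`
(the TRANSPOSE of the Prelude's `heckeOperatorBar N ℓ = (α_ℓ)_* (β_ℓ)^*`; decision of report 941), as a
`Top68.UFamily` at `ℓ = 2`.  Light file (imports `DivNorm27/Main` and `Top68/Global` only).

* `uBar N ℓ : Module.End ℤ (JZero N)` (`ℓ : Nat.Primes`) : Prelude `heckePic0BarTranspose` with helper27's
  `_all` side conditions; all side conditions are propositions, so any other choice of proofs gives the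
  same operator (`uBar_eq`);
* `uTwo : Top68.UFamily := fun N' _ => uBar N' 2`.
-/
import Mathlib
import Fermat.Agent.T1B.DivNorm27.Main
import Fermat.Agent.T1B.Top68.Global

set_option autoImplicit false
set_option linter.style.haveILetI false
set_option linter.unusedSectionVars false

open ModularCurve AlgebraicCurve

noncomputable section

namespace Fermat.Agent.T1B.Degen21.UFam

open Fermat.Agent.T1B.DivNorm27 Fermat.Agent.ES.HECKE.InputsMain19 Fermat.Agent.T1B.Top68

local notation "Qb" => AlgebraicClosure ℚ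

/-- `U_ℓ = (β_ℓ)_* (α_ℓ)^*` on `J₀(N)(ℚ̄)`. -/
def uBar (N : ℕ) [NeZero N] (ℓ : Nat.Primes) : Module.End ℤ (JZero N) :=
  haveI : NeZero (ℓ : ℕ) := ⟨ℓ.2.ne_zero⟩
  haveI := hasPrincipalDivisors_level N ℓ
  (heckePic0BarTranspose (heckeAlphaBarIntegral_all N ℓ ℓ.2) (heckeBetaBarIntegral_all N ℓ ℓ.2)
    (fundamentalIdentityAlong_alpha_all N ℓ ℓ.2) (finiteAlong_beta_all N ℓ ℓ.2)
    (normFormulaAlong_beta_all N ℓ ℓ.2)).toIntLinearMap

/-- `uBar` is the Prelude's transposed correspondence for ANY proofs of the side conditions. -/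
theorem uBar_apply (N : ℕ) [NeZero N] (ℓ : Nat.Primes) [NeZero (ℓ : ℕ)]
    [HasPrincipalDivisors Qb (modularFunctionFieldBar (N * ℓ))]
    (hα : HeckeAlphaBarIntegral Qb N ℓ) (hβ : HeckeBetaBarIntegral Qb N ℓ)
    (hFI : FundamentalIdentityAlong Qb (heckeAlphaBar Qb N ℓ) hα)
    (hfin : FiniteAlong Qb (heckeBetaBar Qb N ℓ))
    (hN : NormFormulaAlong Qb (heckeBetaBar Qb N ℓ) hfin) (x : JZero N) :
    uBar N ℓ x = heckePic0BarTranspose hα hβ hFI hfin hN x :=
  rfl

/-- The `U_2`-family of the T1B chain. -/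
def uTwo : UFamily := fun N' _ => uBar N' ⟨2, Nat.prime_two⟩

theorem uTwo_apply (N' : ℕ) [NeZero N'] : uTwo N' = uBar N' ⟨2, Nat.prime_two⟩ := rfl

end Fermat.Agent.T1B.Degen21.UFam
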