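/-
T1B / brick DEGEN-HECKE (helper21), part 4: the degeneracy maps preserve the occurrence subgroups.

For a prime `p`, `N` any level, and the norm compatibilities `NormBC N p ℓ` at the primes `ℓ ≠ p`:

* `piOne_heckeOperatorBar`, `piTwo_heckeOperatorBar` : `π_i (T_ℓ x) = T_ℓ (π_i x)` (Prelude `heckeOperatorBar`);
* `piOne_uBar`, `piTwo_uBar` : `π_i (U_ℓ x) = U_ℓ (π_i x)` (`UFam.uBar`, the transposed operator);
* `piOne_mem_occSub`, `piTwo_mem_occSub` : `π_i (OccSub uTwo (N p) r good a C) ⊆ OccSub uTwo N r good a C`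
  as soon as `good ℓ → ℓ prime, ℓ ∤ N p` and `p ≠ 2`;
* `degenOne M' p`, `degenTwo M' p : JZero (M' * p) →+ JZero M'` : the TOTAL families (zero unless `p` is an
  odd prime not dividing `M'`), in the shape of helper66's `Local66.Assembly.local44`;
* `degenOne_mem_occSub`, `degenTwo_mem_occSub` : helper66's `DegeneracyOK` for them (with `U = uTwo`).
-/
import Mathlib
import Fermat.Agent.T1B.Degen21.Level
import Fermat.Agent.T1B.Degen21.UFam

set_option autoImplicit false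
set_option linter.style.haveILetI false
set_option linter.unusedSectionVars false

open ModularCurve AlgebraicCurve

noncomputable section

namespace Fermat.Agent.T1B.Degen21.Occ

open Fermat.Agent.ES.HECKE Fermat.Agent.T1B.DivNorm27 Fermat.Agent.T1B.Degen21.Level
  Fermat.Agent.T1B.Degen21.UFam Fermat.Agent.ES.HECKE.InputsMain19 Fermat.Agent.T1B.Top68
open Fermat.Agent.ES.HECKE.BaseChange19 (normAlong)

local notation "Qb" => AlgebraicClosure ℚ

/-! ### general -/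

/-- Polynomials in intertwined endomorphisms are intertwined. -/
theorem aeval_intertwine21 {M N : Type*} [AddCommGroup M] [AddCommGroup N] (f : M →+ N)
    (S : Module.End ℤ M) (T : Module.End ℤ N) (h : ∀ x, f (S x) = T (f x)) (c : Polynomial ℤ)
    (x : M) : f (Polynomial.aeval S c x) = Polynomial.aeval T c (f x) := by
  have hpow : ∀ (n : ℕ) (x : M), f ((S ^ n) x) = (T ^ n) (f x) := by
    intro n
    induction n with
    | zero => intro x; simp
    | succ n ih => intro x; rw [pow_succ, pow_succ, Module.End.mul_apply, Module.End.mul_apply, ih, h]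
  induction c using Polynomial.induction_on' with
  | add c d hc hd =>
    rw [map_add, map_add, LinearMap.add_apply, LinearMap.add_apply, map_add, hc, hd]
  | monomial n a =>
    rw [Polynomial.aeval_monomial, Polynomial.aeval_monomial]
    simp only [eq_intCast, Module.End.mul_apply]
    rw [Module.End.intCast_apply, Module.End.intCast_apply, map_zsmul, hpow]

/-! ### `T_ℓ` and `U_ℓ` -/

section Ops

variable (N p : ℕ) [NeZero N] [NeZero p]

/-- **`π₁ ∘ T_ℓ = T_ℓ ∘ π₁`** for the Prelude's `heckeOperatorBar`. -/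
theorem piOne_heckeOperatorBar (hp : p.Prime) (ℓ : Nat.Primes)
    (hnorm : haveI : NeZero (ℓ : ℕ) := ⟨ℓ.2.ne_zero⟩
      ∀ f : modularFunctionFieldBar (N * p),
        normAlong (alphaUp N p ℓ) (heckeBetaBar Qb (N * p) ℓ f) =
          heckeBetaBar Qb N ℓ (normAlong (heckeAlphaBar Qb N p) f))
    (x : JZero (N * p)) :
    piOne N p hp (heckeOperatorBar (N * p) ℓ x) = heckeOperatorBar N ℓ (piOne N p hp x) := by
  haveI : NeZero (ℓ : ℕ) := ⟨ℓ.2.ne_zero⟩
  haveI := hasPrincipalDivisors_level N ℓ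
  haveI := hasPrincipalDivisors_level (N * p) ℓ
  rw [heckeOperatorBar_apply, heckeOperatorBar_apply,
    heckeOperatorAlong_eq (heckeAlphaBarIntegral_all N ℓ ℓ.2) (heckeBetaBarIntegral_all N ℓ ℓ.2)
      (fundamentalIdentityAlong_beta_all N ℓ ℓ.2) (finiteAlong_alpha_all N ℓ ℓ.2)
      (normFormulaAlong_alpha_all N ℓ ℓ.2),
    heckeOperatorAlong_eq (heckeAlphaBarIntegral_all (N * p) ℓ ℓ.2)
      (heckeBetaBarIntegral_all (N * p) ℓ ℓ.2) (fundamentalIdentityAlong_beta_all (N * p) ℓ ℓ.2)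
      (finiteAlong_alpha_all (N * p) ℓ ℓ.2) (normFormulaAlong_alpha_all (N * p) ℓ ℓ.2)]
  exact piOne_heckePic0Bar N p ℓ hp hnorm _ _ _ _ _ _ _ _ _ _ x

/-- **`π₂ ∘ T_ℓ = T_ℓ ∘ π₂`** for the Prelude's `heckeOperatorBar`. -/
theorem piTwo_heckeOperatorBar (hp : p.Prime) (ℓ : Nat.Primes)
    (hnorm : haveI : NeZero (ℓ : ℕ) := ⟨ℓ.2.ne_zero⟩
      ∀ f : modularFunctionFieldBar (N * p),
        normAlong (betaUp N p ℓ) (heckeBetaBar Qb (N * p) ℓ f) =
          heckeBetaBar Qb N ℓ (normAlong (heckeBetaBar Qb N p) f))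
    (x : JZero (N * p)) :
    piTwo N p hp (heckeOperatorBar (N * p) ℓ x) = heckeOperatorBar N ℓ (piTwo N p hp x) := by
  haveI : NeZero (ℓ : ℕ) := ⟨ℓ.2.ne_zero⟩
  haveI := hasPrincipalDivisors_level N ℓ
  haveI := hasPrincipalDivisors_level (N * p) ℓ
  rw [heckeOperatorBar_apply, heckeOperatorBar_apply,
    heckeOperatorAlong_eq (heckeAlphaBarIntegral_all N ℓ ℓ.2) (heckeBetaBarIntegral_all N ℓ ℓ.2)
      (fundamentalIdentityAlong_beta_all N ℓ ℓ.2) (finiteAlong_alpha_all N ℓ ℓ.2)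
      (normFormulaAlong_alpha_all N ℓ ℓ.2),
    heckeOperatorAlong_eq (heckeAlphaBarIntegral_all (N * p) ℓ ℓ.2)
      (heckeBetaBarIntegral_all (N * p) ℓ ℓ.2) (fundamentalIdentityAlong_beta_all (N * p) ℓ ℓ.2)
      (finiteAlong_alpha_all (N * p) ℓ ℓ.2) (normFormulaAlong_alpha_all (N * p) ℓ ℓ.2)]
  exact piTwo_heckePic0Bar N p ℓ hp hnorm _ _ _ _ _ _ _ _ _ _ x

/-- **`π₁ ∘ U_ℓ = U_ℓ ∘ π₁`** for the transposed operator `uBar`. -/
theorem piOne_uBar (hp : p.Prime) (ℓ : Nat.Primes)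
    (hnorm : haveI : NeZero (ℓ : ℕ) := ⟨ℓ.2.ne_zero⟩
      ∀ f : modularFunctionFieldBar (N * p),
        normAlong (alphaUp N p ℓ) (heckeAlphaBar Qb (N * p) ℓ f) =
          heckeAlphaBar Qb N ℓ (normAlong (heckeAlphaBar Qb N p) f))
    (x : JZero (N * p)) :
    piOne N p hp (uBar (N * p) ℓ x) = uBar N ℓ (piOne N p hp x) := by
  haveI : NeZero (ℓ : ℕ) := ⟨ℓ.2.ne_zero⟩
  haveI := hasPrincipalDivisors_level N ℓ
  haveI := hasPrincipalDivisors_level (N * p) ℓ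
  exact piOne_transpose N p ℓ hp hnorm (heckeAlphaBarIntegral_all N ℓ ℓ.2)
    (heckeBetaBarIntegral_all N ℓ ℓ.2) (fundamentalIdentityAlong_alpha_all N ℓ ℓ.2)
    (finiteAlong_beta_all N ℓ ℓ.2) (normFormulaAlong_beta_all N ℓ ℓ.2)
    (heckeAlphaBarIntegral_all (N * p) ℓ ℓ.2) (heckeBetaBarIntegral_all (N * p) ℓ ℓ.2)
    (fundamentalIdentityAlong_alpha_all (N * p) ℓ ℓ.2) (finiteAlong_beta_all (N * p) ℓ ℓ.2)
    (normFormulaAlong_beta_all (N * p) ℓ ℓ.2) x

/-- **`π₂ ∘ U_ℓ = U_ℓ ∘ π₂`** for the transposed operator `uBar`. -/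
theorem piTwo_uBar (hp : p.Prime) (ℓ : Nat.Primes)
    (hnorm : haveI : NeZero (ℓ : ℕ) := ⟨ℓ.2.ne_zero⟩
      ∀ f : modularFunctionFieldBar (N * p),
        normAlong (betaUp N p ℓ) (heckeAlphaBar Qb (N * p) ℓ f) =
          heckeAlphaBar Qb N ℓ (normAlong (heckeBetaBar Qb N p) f))
    (x : JZero (N * p)) :
    piTwo N p hp (uBar (N * p) ℓ x) = uBar N ℓ (piTwo N p hp x) := by
  haveI : NeZero (ℓ : ℕ) := ⟨ℓ.2.ne_zero⟩
  haveI := hasPrincipalDivisors_level N ℓ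
  haveI := hasPrincipalDivisors_level (N * p) ℓ
  exact piTwo_transpose N p ℓ hp hnorm (heckeAlphaBarIntegral_all N ℓ ℓ.2)
    (heckeBetaBarIntegral_all N ℓ ℓ.2) (fundamentalIdentityAlong_alpha_all N ℓ ℓ.2)
    (finiteAlong_beta_all N ℓ ℓ.2) (normFormulaAlong_beta_all N ℓ ℓ.2)
    (heckeAlphaBarIntegral_all (N * p) ℓ ℓ.2) (heckeBetaBarIntegral_all (N * p) ℓ ℓ.2)
    (fundamentalIdentityAlong_alpha_all (N * p) ℓ ℓ.2) (finiteAlong_beta_all (N * p) ℓ ℓ.2)
    (normFormulaAlong_beta_all (N * p) ℓ ℓ.2) x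

end Ops

/-! ### the occurrence subgroups -/

section OccSub

variable (N p : ℕ) [NeZero N] [NeZero p]

/-- The norm compatibilities at all primes `ℓ ≠ p`. -/
def NormBCAll : Prop :=
  ∀ ℓ : Nat.Primes, (ℓ : ℕ) ≠ p → haveI : NeZero (ℓ : ℕ) := ⟨ℓ.2.ne_zero⟩; NormBC N p ℓ

/-- **`π₁` preserves the occurrence subgroups.** -/
theorem piOne_mem_occSub (hp : p.Prime) (hp2 : p ≠ 2) (hBC : NormBCAll N p) (r : ℕ)
    (good : ℕ → Prop) (a : ℕ → ℤ) (C : Set (Polynomial ℤ))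
    (hgood : ∀ ℓ, good ℓ → ℓ.Prime ∧ ¬ ℓ ∣ N * p) {x : JZero (N * p)}
    (hx : x ∈ OccSub uTwo (N * p) r good a C) : piOne N p hp x ∈ OccSub uTwo N r good a C := by
  obtain ⟨hx1, hx2, hx3⟩ := hx
  refine ⟨by rw [← map_zsmul, hx1, map_zero], fun ℓ hℓ => ?_, fun c hc => ?_⟩
  · have hℓp : (ℓ : ℕ) ≠ p := fun h => (hgood ℓ hℓ).2 (h ▸ dvd_mul_left _ _)
    haveI : NeZero (ℓ : ℕ) := ⟨ℓ.2.ne_zero⟩
    rw [← piOne_heckeOperatorBar N p hp ℓ (hBC ℓ hℓp).alpha_beta, hx2 ℓ hℓ, map_zsmul]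
  · have h2p : ((⟨2, Nat.prime_two⟩ : Nat.Primes) : ℕ) ≠ p := fun h => hp2 h.symm
    haveI : NeZero ((⟨2, Nat.prime_two⟩ : Nat.Primes) : ℕ) := ⟨two_ne_zero⟩
    rw [← aeval_intertwine21 (piOne N p hp) (uTwo (N * p)) (uTwo N)
      (fun y => piOne_uBar N p hp ⟨2, Nat.prime_two⟩ (hBC _ h2p).alpha_alpha y), hx3 c hc, map_zero]

/-- **`π₂` preserves the occurrence subgroups.** -/
theorem piTwo_mem_occSub (hp : p.Prime) (hp2 : p ≠ 2) (hBC : NormBCAll N p) (r : ℕ)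
    (good : ℕ → Prop) (a : ℕ → ℤ) (C : Set (Polynomial ℤ))
    (hgood : ∀ ℓ, good ℓ → ℓ.Prime ∧ ¬ ℓ ∣ N * p) {x : JZero (N * p)}
    (hx : x ∈ OccSub uTwo (N * p) r good a C) : piTwo N p hp x ∈ OccSub uTwo N r good a C := by
  obtain ⟨hx1, hx2, hx3⟩ := hx
  refine ⟨by rw [← map_zsmul, hx1, map_zero], fun ℓ hℓ => ?_, fun c hc => ?_⟩
  · have hℓp : (ℓ : ℕ) ≠ p := fun h => (hgood ℓ hℓ).2 (h ▸ dvd_mul_left _ _)
    haveI : NeZero (ℓ : ℕ) := ⟨ℓ.2.ne_zero⟩
    rw [← piTwo_heckeOperatorBar N p hp ℓ (hBC ℓ hℓp).beta_beta, hx2 ℓ hℓ, map_zsmul]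
  · have h2p : ((⟨2, Nat.prime_two⟩ : Nat.Primes) : ℕ) ≠ p := fun h => hp2 h.symm
    haveI : NeZero ((⟨2, Nat.prime_two⟩ : Nat.Primes) : ℕ) := ⟨two_ne_zero⟩
    rw [← aeval_intertwine21 (piTwo N p hp) (uTwo (N * p)) (uTwo N)
      (fun y => piTwo_uBar N p hp ⟨2, Nat.prime_two⟩ (hBC _ h2p).beta_alpha y), hx3 c hc, map_zero]

end OccSub

/-! ### the total families (shape of `Local66.Assembly.local44`) -/

section Total

/-- The range in which the degeneracy maps are defined and `DegeneracyOK`: `p` an odd prime, `p ∤ M'`. -/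
def DegenRange (M' p : ℕ) : Prop := p.Prime ∧ ¬ p ∣ M' ∧ p ≠ 2

open Classical in
/-- `π₁` as a total family (zero outside `DegenRange`). -/
def degenOne (M' p : ℕ) [NeZero M'] [NeZero (M' * p)] : JZero (M' * p) →+ JZero M' :=
  if h : DegenRange M' p then (haveI : NeZero p := ⟨h.1.ne_zero⟩; piOne M' p h.1) else 0

open Classical in
/-- `π₂` as a total family (zero outside `DegenRange`). -/
def degenTwo (M' p : ℕ) [NeZero M'] [NeZero (M' * p)] : JZero (M' * p) →+ JZero M' :=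
  if h : DegenRange M' p then (haveI : NeZero p := ⟨h.1.ne_zero⟩; piTwo M' p h.1) else 0

theorem degenOne_eq (M' p : ℕ) [NeZero M'] [NeZero (M' * p)] [NeZero p] (h : DegenRange M' p) :
    degenOne M' p = piOne M' p h.1 := by
  rw [degenOne, dif_pos h]

theorem degenTwo_eq (M' p : ℕ) [NeZero M'] [NeZero (M' * p)] [NeZero p] (h : DegenRange M' p) :
    degenTwo M' p = piTwo M' p h.1 := by
  rw [degenTwo, dif_pos h]

/-- Galois-equivariance of the total family `π₁`. -/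
theorem degenOne_smul (M' p : ℕ) [NeZero M'] [NeZero (M' * p)] (σ : Qb ≃ₐ[ℚ] Qb)
    (x : JZero (M' * p)) : degenOne M' p (σ • x) = σ • degenOne M' p x := by
  by_cases h : DegenRange M' p
  · haveI : NeZero p := ⟨h.1.ne_zero⟩
    rw [degenOne_eq M' p h]
    exact piOne_smul M' p h.1 σ x
  · rw [degenOne, dif_neg h, AddMonoidHom.zero_apply, AddMonoidHom.zero_apply, smul_zero]

/-- Galois-equivariance of the total family `π₂`. -/
theorem degenTwo_smul (M' p : ℕ) [NeZero M'] [NeZero (M' * p)] (σ : Qb ≃ₐ[ℚ] Qb)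
    (x : JZero (M' * p)) : degenTwo M' p (σ • x) = σ • degenTwo M' p x := by
  by_cases h : DegenRange M' p
  · haveI : NeZero p := ⟨h.1.ne_zero⟩
    rw [degenTwo_eq M' p h]
    exact piTwo_smul M' p h.1 σ x
  · rw [degenTwo, dif_neg h, AddMonoidHom.zero_apply, AddMonoidHom.zero_apply, smul_zero]

/-- The norm compatibilities in the whole range. -/
def NormBCRange : Prop :=
  ∀ (M' p : ℕ) [NeZero M'] [NeZero p], p.Prime → ¬ p ∣ M' → NormBCAll M' p

/-- **helper66's `DegeneracyOK` for `π₁`** (with `U = uTwo`). -/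
theorem degenOne_mem_occSub (H : NormBCRange) (M' p : ℕ) [NeZero M'] [NeZero (M' * p)] (r : ℕ)
    (good : ℕ → Prop) (a : ℕ → ℤ) (C : Set (Polynomial ℤ))
    (hgood : ∀ ℓ, good ℓ → ℓ.Prime ∧ ¬ ℓ ∣ M' * p) (x : JZero (M' * p))
    (hx : x ∈ OccSub uTwo (M' * p) r good a C) : degenOne M' p x ∈ OccSub uTwo M' r good a C := by
  by_cases h : DegenRange M' p
  · haveI : NeZero p := ⟨h.1.ne_zero⟩
    rw [degenOne_eq M' p h]
    exact piOne_mem_occSub M' p h.1 h.2.2 (H M' p h.1 h.2.1) r good a C hgood hx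
  · rw [degenOne, dif_neg h, AddMonoidHom.zero_apply]
    exact (OccSub uTwo M' r good a C).zero_mem

/-- **helper66's `DegeneracyOK` for `π₂`** (with `U = uTwo`). -/
theorem degenTwo_mem_occSub (H : NormBCRange) (M' p : ℕ) [NeZero M'] [NeZero (M' * p)] (r : ℕ)
    (good : ℕ → Prop) (a : ℕ → ℤ) (C : Set (Polynomial ℤ))
    (hgood : ∀ ℓ, good ℓ → ℓ.Prime ∧ ¬ ℓ ∣ M' * p) (x : JZero (M' * p))
    (hx : x ∈ OccSub uTwo (M' * p) r good a C) : degenTwo M' p x ∈ OccSub uTwo M' r good a C := by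
  by_cases h : DegenRange M' p
  · haveI : NeZero p := ⟨h.1.ne_zero⟩
    rw [degenTwo_eq M' p h]
    exact piTwo_mem_occSub M' p h.1 h.2.2 (H M' p h.1 h.2.1) r good a C hgood hx
  · rw [degenTwo, dif_neg h, AddMonoidHom.zero_apply]
    exact (OccSub uTwo M' r good a C).zero_mem

end Total

end Fermat.Agent.T1B.Degen21.Occ
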