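/-
T1B / brick DEGEN-HECKE (helper21): the kernel of the degeneracy push-forwards, unfolded to divisors
(for the consumers of `π₁ x = 0`, `π₂ x = 0`: brick CMP / field `toric` of `Local66.LocalGeom`).

* `Pic.pic0Push_mk_eq_zero_iff` (here `pic0Push_mk_eq_zero_iff`) : `φ_* [D] = 0 ↔ φ_* D` principal;
* `piOne_mk_eq_zero_iff`, `piTwo_mk_eq_zero_iff` : `π₁ [D] = 0 ↔ (α_p)_* D = div h` for some `h ≠ 0`, same for `β_p`;
* `degenOne_mk_eq_zero_iff`, `degenTwo_mk_eq_zero_iff` : the same for the total families on `DegenRange`.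
-/
import Mathlib
import Fermat.Agent.T1B.Degen21.Occ

set_option autoImplicit false
set_option linter.style.haveILetI false
set_option linter.unusedSectionVars false

open ModularCurve AlgebraicCurve

noncomputable section

namespace Fermat.Agent.T1B.Degen21.Ker

open Fermat.Agent.T1B.DivNorm27 Fermat.Agent.T1B.Degen21.Pic Fermat.Agent.T1B.Degen21.Level
  Fermat.Agent.T1B.Degen21.Occ

local notation "Qb" => AlgebraicClosure ℚ

section Generic

variable {K F F' : Type*} [Field K] [Field F] [Field F'] [Algebra K F] [Algebra K F']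

/-- `φ_* [D] = 0` iff the divisor `φ_* D` is principal. -/
theorem pic0Push_mk_eq_zero_iff (φ : F →ₐ[K] F') (hφ : φ.toRingHom.IsIntegral)
    (hfin : FiniteAlong K φ) (hN : NormFormulaAlong K φ hfin)
    (D : Divisor.degZero (K := K) (F := F')) :
    pic0Push φ hφ hfin hN (Pic0.mk D) = 0 ↔
      (Divisor.pushforwardAlong φ hφ (D : Divisor K F')).IsPrincipal := by
  rw [pic0Push_mk]
  show (QuotientAddGroup.mk (degZeroPush φ hφ D) : Pic0 K F) = 0 ↔ _
  rw [QuotientAddGroup.eq_zero_iff, AddSubgroup.mem_addSubgroupOf, coe_degZeroPush]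
  exact Iff.rfl

end Generic

section Level

variable (N p : ℕ) [NeZero N] [NeZero p]

/-- `π₁ [D] = 0` iff `(α_p)_* D = div h` for some `h ≠ 0`. -/
theorem piOne_mk_eq_zero_iff (hp : p.Prime)
    (D : Divisor.degZero (K := Qb) (F := modularFunctionFieldBar (N * p))) :
    piOne N p hp (Pic0.mk D) = 0 ↔
      ∃ h : modularFunctionFieldBar N, h ≠ 0 ∧ ∀ v : Place Qb (modularFunctionFieldBar N),
        Divisor.pushforwardAlong (heckeAlphaBar Qb N p) (heckeAlphaBarIntegral_all N p hp)
          (D : Divisor Qb (modularFunctionFieldBar (N * p))) v = v.ord h :=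
  pic0Push_mk_eq_zero_iff _ _ _ _ D

/-- `π₂ [D] = 0` iff `(β_p)_* D = div h` for some `h ≠ 0`. -/
theorem piTwo_mk_eq_zero_iff (hp : p.Prime)
    (D : Divisor.degZero (K := Qb) (F := modularFunctionFieldBar (N * p))) :
    piTwo N p hp (Pic0.mk D) = 0 ↔
      ∃ h : modularFunctionFieldBar N, h ≠ 0 ∧ ∀ v : Place Qb (modularFunctionFieldBar N),
        Divisor.pushforwardAlong (heckeBetaBar Qb N p) (heckeBetaBarIntegral_all N p hp)
          (D : Divisor Qb (modularFunctionFieldBar (N * p))) v = v.ord h :=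
  pic0Push_mk_eq_zero_iff _ _ _ _ D

end Level

section Total

variable (M' p : ℕ) [NeZero M'] [NeZero (M' * p)] [NeZero p]

theorem degenOne_mk_eq_zero_iff (h : DegenRange M' p)
    (D : Divisor.degZero (K := Qb) (F := modularFunctionFieldBar (M' * p))) :
    degenOne M' p (Pic0.mk D) = 0 ↔
      ∃ g : modularFunctionFieldBar M', g ≠ 0 ∧ ∀ v : Place Qb (modularFunctionFieldBar M'),
        Divisor.pushforwardAlong (heckeAlphaBar Qb M' p) (heckeAlphaBarIntegral_all M' p h.1)
          (D : Divisor Qb (modularFunctionFieldBar (M' * p))) v = v.ord g := by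
  rw [degenOne_eq M' p h]
  exact piOne_mk_eq_zero_iff M' p h.1 D

theorem degenTwo_mk_eq_zero_iff (h : DegenRange M' p)
    (D : Divisor.degZero (K := Qb) (F := modularFunctionFieldBar (M' * p))) :
    degenTwo M' p (Pic0.mk D) = 0 ↔
      ∃ g : modularFunctionFieldBar M', g ≠ 0 ∧ ∀ v : Place Qb (modularFunctionFieldBar M'),
        Divisor.pushforwardAlong (heckeBetaBar Qb M' p) (heckeBetaBarIntegral_all M' p h.1)
          (D : Divisor Qb (modularFunctionFieldBar (M' * p))) v = v.ord g := by
  rw [degenTwo_eq M' p h]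
  exact piTwo_mk_eq_zero_iff M' p h.1 D

end Total

end Fermat.Agent.T1B.Degen21.Ker
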