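/-
T1B / brick DEGEN-HECKE (helper21): bridge from the norm compatibilities stated with a level cast on the
Hecke side (helper20's `Degen20/NormBC.lean`:
`N_{δ_p at Nℓ} (c (ψ_ℓ at Np f)) = ψ_ℓ at N (N_{δ_p at N} f)`, `c : F̄_{Npℓ} ≃ F̄_{Nℓp}` the level cast)
to `Level.NormBC N p ℓ` (cast on the degeneracy side: `alphaUp`, `betaUp`).

* `normAlong_equiv_comp` : `N_{e ∘ a} (e z) = N_a z` for an isomorphism `e`;
* `alphaUp_eq`, `betaUp_eq` : `alphaUp = c⁻¹ ∘ α_p`, `betaUp = c⁻¹ ∘ β_p` for any `q`-expansion preserving `c`;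
* `normBC_of_cast`.
-/
import Mathlib
import Fermat.Agent.T1B.Degen21.Level

set_option autoImplicit false
set_option linter.style.haveILetI false
set_option linter.unusedSectionVars false

open ModularCurve AlgebraicCurve

noncomputable section

namespace Fermat.Agent.T1B.Degen21.Bridge

open Fermat.Agent.ES.HECKE Fermat.Agent.T1B.Degen21.Level
open Fermat.Agent.ES.HECKE.BaseChange19 (normAlong)

local notation "Qb" => AlgebraicClosure ℚ

section Generic

variable {K C D D' : Type*} [Field K] [Field C] [Field D] [Field D'] [Algebra K C] [Algebra K D]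
  [Algebra K D']

/-- The norm along `e ∘ a` for an isomorphism `e`. -/
theorem normAlong_equiv_comp (a : C →ₐ[K] D') (e : D' ≃ₐ[K] D) (z : D') :
    normAlong ((e : D' →ₐ[K] D).comp a) (e z) = normAlong a z := by
  letI := algebraAlong a
  letI := algebraAlong ((e : D' →ₐ[K] D).comp a)
  let e' : D' ≃ₐ[C] D := { e.toRingEquiv with commutes' := fun _ => rfl }
  exact Algebra.norm_eq_of_algEquiv e' z

end Generic

section Cast

variable (N p ℓ : ℕ) [NeZero N] [NeZero p] [NeZero ℓ]
  (c : modularFunctionFieldBar (N * p * ℓ) ≃ₐ[Qb] modularFunctionFieldBar (N * ℓ * p))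
  (hc : ∀ x, ((c x : modularFunctionFieldBar (N * ℓ * p)) : LaurentSeries Qb) =
    (x : LaurentSeries Qb))

include hc

theorem coe_cast_symm (y : modularFunctionFieldBar (N * ℓ * p)) :
    ((c.symm y : modularFunctionFieldBar (N * p * ℓ)) : LaurentSeries Qb) =
      (y : LaurentSeries Qb) := by
  rw [← hc (c.symm y), c.apply_symm_apply]

theorem alphaUp_eq :
    alphaUp N p ℓ = (c.symm : _ →ₐ[Qb] _).comp (heckeAlphaBar Qb (N * ℓ) p) := by
  apply AlgHom.ext
  intro x
  apply Subtype.ext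
  rw [AlgHom.comp_apply, coe_alphaUp, AlgEquiv.coe_toAlgHom, coe_cast_symm N p ℓ c hc,
    coe_heckeAlphaBar]

theorem betaUp_eq :
    betaUp N p ℓ = (c.symm : _ →ₐ[Qb] _).comp (heckeBetaBar Qb (N * ℓ) p) := by
  apply AlgHom.ext
  intro x
  apply Subtype.ext
  rw [AlgHom.comp_apply, coe_betaUp, AlgEquiv.coe_toAlgHom, coe_cast_symm N p ℓ c hc,
    coe_heckeBetaBar]

theorem normAlong_alphaUp (z : modularFunctionFieldBar (N * p * ℓ)) :
    normAlong (alphaUp N p ℓ) z = normAlong (heckeAlphaBar Qb (N * ℓ) p) (c z) := by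
  rw [alphaUp_eq N p ℓ c hc]
  have := normAlong_equiv_comp (heckeAlphaBar Qb (N * ℓ) p) c.symm (c z)
  rwa [c.symm_apply_apply] at this

theorem normAlong_betaUp (z : modularFunctionFieldBar (N * p * ℓ)) :
    normAlong (betaUp N p ℓ) z = normAlong (heckeBetaBar Qb (N * ℓ) p) (c z) := by
  rw [betaUp_eq N p ℓ c hc]
  have := normAlong_equiv_comp (heckeBetaBar Qb (N * ℓ) p) c.symm (c z)
  rwa [c.symm_apply_apply] at this

/-- **The bridge**: the four norm compatibilities with the level cast `c` on the Hecke side give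
`NormBC N p ℓ`. -/
theorem normBC_of_cast
    (haa : ∀ f : modularFunctionFieldBar (N * p),
      normAlong (heckeAlphaBar Qb (N * ℓ) p) (c (heckeAlphaBar Qb (N * p) ℓ f)) =
        heckeAlphaBar Qb N ℓ (normAlong (heckeAlphaBar Qb N p) f))
    (hab : ∀ f : modularFunctionFieldBar (N * p),
      normAlong (heckeAlphaBar Qb (N * ℓ) p) (c (heckeBetaBar Qb (N * p) ℓ f)) =
        heckeBetaBar Qb N ℓ (normAlong (heckeAlphaBar Qb N p) f))
    (hba : ∀ f : modularFunctionFieldBar (N * p),
      normAlong (heckeBetaBar Qb (N * ℓ) p) (c (heckeAlphaBar Qb (N * p) ℓ f)) =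
        heckeAlphaBar Qb N ℓ (normAlong (heckeBetaBar Qb N p) f))
    (hbb : ∀ f : modularFunctionFieldBar (N * p),
      normAlong (heckeBetaBar Qb (N * ℓ) p) (c (heckeBetaBar Qb (N * p) ℓ f)) =
        heckeBetaBar Qb N ℓ (normAlong (heckeBetaBar Qb N p) f)) :
    NormBC N p ℓ where
  alpha_alpha f := by rw [normAlong_alphaUp N p ℓ c hc, haa]
  alpha_beta f := by rw [normAlong_alphaUp N p ℓ c hc, hab]
  beta_alpha f := by rw [normAlong_betaUp N p ℓ c hc, hba]
  beta_beta f := by rw [normAlong_betaUp N p ℓ c hc, hbb]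

end Cast

end Fermat.Agent.T1B.Degen21.Bridge
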